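import Mathlib

set_option autoImplicit false

/-!
# S55-BRG, layer 1 : "Brauer language" = smooth cochains with values in a multiplicative module

Abstract setting used both for `(G_F, Q̄ˣ)` and for `(G_{F_v}, Ω_vˣ)`:
a group `G`, a system `L` of "levels" (normal subgroups, directed), a multiplicative `G`-module `A`.

A cochain is *smooth* if it is inflated from some level `U`: it is constant modulo `U` and its
values are fixed by `U`.  So the smooth cochains are, by definition, the union of the finite level
cochain groups `C(G/U, A^U)`; no quotient group and no fixed-point module ever appears.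
With the level system `LevelSys.bot G` (only level `⊥`) every cochain is smooth.
-/

namespace Fermat.Agent.S55.Br

open groupCohomology

/-- a system of "levels" (think: open normal subgroups) of `G`. -/
structure LevelSys (G : Type*) [Group G] where
  lev : Set (Subgroup G)
  normal : ∀ U ∈ lev, U.Normal
  inter : ∀ U ∈ lev, ∀ V ∈ lev, ∃ W ∈ lev, W ≤ U ⊓ V
  ne : lev.Nonempty

namespace LevelSys

variable {G G' : Type*} [Group G] [Group G']

/-- all levels have finite index. -/
def Fin (L : LevelSys G) : Prop := ∀ U ∈ L.lev, U.FiniteIndex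

/-- pull-back of a level system along a group homomorphism (restriction to a subgroup,
localisation, conjugation, ...). -/
def comap (L : LevelSys G) (φ : G' →* G) : LevelSys G' where
  lev := (fun U => U.comap φ) '' L.lev
  normal := by
    rintro _ ⟨U, hU, rfl⟩
    have := L.normal U hU
    infer_instance
  inter := by
    rintro _ ⟨U, hU, rfl⟩ _ ⟨V, hV, rfl⟩
    obtain ⟨W, hW, hle⟩ := L.inter U hU V hV
    exact ⟨_, ⟨W, hW, rfl⟩, by rw [← Subgroup.comap_inf]; exact Subgroup.comap_mono hle⟩
  ne := L.ne.image _

/-- the discrete level system: every cochain is smooth. -/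
def bot (G : Type*) [Group G] : LevelSys G where
  lev := {⊥}
  normal := by rintro _ rfl; infer_instance
  inter := by rintro _ rfl _ rfl; exact ⟨⊥, rfl, le_inf le_rfl le_rfl⟩
  ne := ⟨⊥, rfl⟩

end LevelSys

section Defs

variable {G : Type*} [Group G] (L : LevelSys G)

/-- a subgroup is open if it contains a level. -/
def IsOpen (H : Subgroup G) : Prop := ∃ U ∈ L.lev, U ≤ H

variable {A : Type*} [CommGroup A] [MulDistribMulAction G A]

/-- the 1-cochain `x` is inflated from `G/U` with values in `A^U`. -/
def Lev₁ (U : Subgroup G) (x : G → A) : Prop :=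
  ∀ g, ∀ s ∈ U, x (g * s) = x g ∧ s • x g = x g

/-- the 2-cochain `β` is inflated from `G/U` with values in `A^U`. -/
def Lev₂ (U : Subgroup G) (β : G × G → A) : Prop :=
  ∀ g h, ∀ s ∈ U, ∀ t ∈ U, β (g * s, h * t) = β (g, h) ∧ s • β (g, h) = β (g, h)

/-- smooth 1-cochain. -/
def IsSm₁ (x : G → A) : Prop := ∃ U ∈ L.lev, Lev₁ U x

/-- smooth 2-cochain. -/
def IsSm₂ (β : G × G → A) : Prop := ∃ U ∈ L.lev, Lev₂ U β

/-- multiplicative coboundary of a 1-cochain (same formula as Mathlib's `IsMulCoboundary₂`). -/
def dOne (x : G → A) : G × G → A := fun gh => gh.1 • x gh.2 / x (gh.1 * gh.2) * x gh.1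

/-- `β` is the coboundary of a smooth 1-cochain. -/
def Triv (β : G × G → A) : Prop := ∃ x : G → A, IsSm₁ L x ∧ dOne x = β

/-- smooth 2-cocycle. -/
structure IsCoc (β : G × G → A) : Prop where
  coc : IsMulCocycle₂ β
  sm : IsSm₂ L β

/-- cohomologous. -/
def Cohom (β β' : G × G → A) : Prop := Triv L (β / β')

variable (A) in
/-- Hilbert 90 for smooth 1-cocycles. -/
def H90 : Prop := ∀ x : G → A, IsSm₁ L x → IsMulCocycle₁ x → IsMulCoboundary₁ x

variable (A) in
/-- Hilbert 90 for all open subgroups. -/
def H90Open : Prop := ∀ H : Subgroup G, IsOpen L H → H90 (L.comap H.subtype) A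

end Defs

section Res

variable {G G' : Type*} [Group G] [Group G'] {X Y : Type*}

/-- pull-back of a 2-cochain along a group homomorphism. -/
def res (φ : G' →* G) (β : G × G → X) : G' × G' → X := fun gh => β (φ gh.1, φ gh.2)

/-- pull-back along `φ` and push-forward along `f` ("localisation"). -/
def loc (φ : G' →* G) (f : X → Y) (β : G × G → X) : G' × G' → Y :=
  fun gh => f (β (φ gh.1, φ gh.2))

end Res

section Cyc

variable {G : Type*} [Group G] {A : Type*} [CommGroup A]

/-- the lift `χ~ g ∈ {0, ..., n-1}` (same as `HQ.lft`). -/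
def lft {n : ℕ} (χ : G →* Multiplicative (ZMod n)) (g : G) : ℕ := (Multiplicative.toAdd (χ g)).val

/-- the cyclic cocycle `c(χ, b)` (same as `HQ.cyc`). -/
def cyc {n : ℕ} (χ : G →* Multiplicative (ZMod n)) (b : A) : G × G → A :=
  fun x => if n ≤ lft χ x.1 + lft χ x.2 then b else 1

variable [MulDistribMulAction G A]

/-- `b` is a norm from the fixed module of `ker χ` (`χ` surjective, `s` a lift of the generator). -/
def IsNormOf {n : ℕ} (χ : G →* Multiplicative (ZMod n)) (b : A) : Prop :=
  ∃ (s : G) (a : A), χ s = Multiplicative.ofAdd 1 ∧ (∀ ν ∈ χ.ker, ν • a = a) ∧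
    ∏ i ∈ Finset.range n, (s ^ i) • a = b

end Cyc

end Fermat.Agent.S55.Br
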