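import Fermat.Agent.S55.Br.Defs

set_option autoImplicit false

/-!
# S55-BRG, layer 1 : basic API I (level systems, open subgroups, smooth cochains, `dOne`)
-/

namespace Fermat.Agent.S55.Br

open groupCohomology

namespace LevelSys

variable {G G' G'' : Type*} [Group G] [Group G'] [Group G'']

theorem comap_comap (L : LevelSys G) (φ : G' →* G) (ψ : G'' →* G') :
    (L.comap φ).comap ψ = L.comap (φ.comp ψ) := by
  cases L
  simp only [LevelSys.comap, LevelSys.mk.injEq, Set.image_image, Subgroup.comap_comap]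

theorem comap_id (L : LevelSys G) : L.comap (MonoidHom.id G) = L := by
  cases L
  simp only [LevelSys.comap, LevelSys.mk.injEq, Subgroup.comap_id, Set.image_id']

theorem Fin.comap {L : LevelSys G} (hL : L.Fin) (φ : G' →* G) : (L.comap φ).Fin := by
  rintro _ ⟨U, hU, rfl⟩
  have := hL U hU
  change (U.comap φ).FiniteIndex
  rw [Subgroup.finiteIndex_iff, Subgroup.index_comap]
  exact (inferInstance : (U.subgroupOf φ.range).FiniteIndex).index_ne_zero

theorem mem_comap {L : LevelSys G} {φ : G' →* G} {U : Subgroup G} (hU : U ∈ L.lev) :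
    U.comap φ ∈ (L.comap φ).lev := ⟨U, hU, rfl⟩

end LevelSys

section open_

variable {G G' : Type*} [Group G] [Group G'] {L : LevelSys G}

theorem IsOpen.mono {H K : Subgroup G} (hH : IsOpen L H) (h : H ≤ K) : IsOpen L K := by
  obtain ⟨U, hU, hle⟩ := hH
  exact ⟨U, hU, hle.trans h⟩

theorem IsOpen.inf {H K : Subgroup G} (hH : IsOpen L H) (hK : IsOpen L K) : IsOpen L (H ⊓ K) := by
  obtain ⟨U, hU, hle⟩ := hH
  obtain ⟨V, hV, hle'⟩ := hK
  obtain ⟨W, hW, hW'⟩ := L.inter U hU V hV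
  exact ⟨W, hW, hW'.trans (inf_le_inf hle hle')⟩

theorem isOpen_top : IsOpen L (⊤ : Subgroup G) := by
  obtain ⟨U, hU⟩ := L.ne
  exact ⟨U, hU, le_top⟩

theorem IsOpen.comap {H : Subgroup G} (hH : IsOpen L H) (φ : G' →* G) :
    IsOpen (L.comap φ) (H.comap φ) := by
  obtain ⟨U, hU, hle⟩ := hH
  exact ⟨_, ⟨U, hU, rfl⟩, Subgroup.comap_mono hle⟩

theorem IsOpen.finiteIndex (hL : L.Fin) {H : Subgroup G} (hH : IsOpen L H) : H.FiniteIndex := by
  obtain ⟨U, hU, hle⟩ := hH
  have := hL U hU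
  exact Subgroup.finiteIndex_of_le hle

/-- an open subgroup of an open subgroup is open. -/
theorem IsOpen.map_subtype {H : Subgroup G} (hH : IsOpen L H) {K : Subgroup H}
    (hK : IsOpen (L.comap H.subtype) K) : IsOpen L (K.map H.subtype) := by
  obtain ⟨U, hU, hle⟩ := hH
  obtain ⟨_, ⟨V, hV, rfl⟩, hle'⟩ := hK
  obtain ⟨W, hW, hW'⟩ := L.inter U hU V hV
  refine ⟨W, hW, ?_⟩
  intro w hw
  have h1 : w ∈ H := hle (hW' hw).1
  exact ⟨⟨w, h1⟩, hle' (Subgroup.mem_comap.mpr (hW' hw).2), rfl⟩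

end open_

section smooth

variable {G : Type*} [Group G] {L : LevelSys G} {A : Type*} [CommGroup A] [MulDistribMulAction G A]

theorem Lev₁.mono {U V : Subgroup G} (h : V ≤ U) {x : G → A} (hx : Lev₁ U x) : Lev₁ V x :=
  fun g s hs => hx g s (h hs)

theorem Lev₂.mono {U V : Subgroup G} (h : V ≤ U) {β : G × G → A} (hβ : Lev₂ U β) : Lev₂ V β :=
  fun g g' s hs t ht => hβ g g' s (h hs) t (h ht)

theorem Lev₁.one (U : Subgroup G) : Lev₁ U (1 : G → A) := by
  intro g s _
  simp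

theorem Lev₁.mul {U : Subgroup G} {x y : G → A} (hx : Lev₁ U x) (hy : Lev₁ U y) :
    Lev₁ U (x * y) := by
  intro g s hs
  simp only [Pi.mul_apply, smul_mul', (hx g s hs).1, (hx g s hs).2, (hy g s hs).1, (hy g s hs).2,
    and_self]

theorem Lev₁.inv {U : Subgroup G} {x : G → A} (hx : Lev₁ U x) : Lev₁ U x⁻¹ := by
  intro g s hs
  simp only [Pi.inv_apply, smul_inv', (hx g s hs).1, (hx g s hs).2, and_self]

theorem Lev₂.one (U : Subgroup G) : Lev₂ U (1 : G × G → A) := by
  intro g h s _ t _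
  simp

theorem Lev₂.mul {U : Subgroup G} {x y : G × G → A} (hx : Lev₂ U x) (hy : Lev₂ U y) :
    Lev₂ U (x * y) := by
  intro g h s hs t ht
  simp only [Pi.mul_apply, smul_mul', (hx g h s hs t ht).1, (hx g h s hs t ht).2,
    (hy g h s hs t ht).1, (hy g h s hs t ht).2, and_self]

theorem Lev₂.inv {U : Subgroup G} {x : G × G → A} (hx : Lev₂ U x) : Lev₂ U x⁻¹ := by
  intro g h s hs t ht
  simp only [Pi.inv_apply, smul_inv', (hx g h s hs t ht).1, (hx g h s hs t ht).2, and_self]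

/-- left invariance follows from right invariance (levels are normal). -/
theorem Lev₁.left {U : Subgroup G} [U.Normal] {x : G → A} (hx : Lev₁ U x) (g : G) {s : G}
    (hs : s ∈ U) : x (s * g) = x g := by
  have h1 : g⁻¹ * s * g ∈ U := by
    have := (inferInstance : U.Normal).conj_mem s hs g⁻¹
    simpa using this
  have h2 := (hx g _ h1).1
  rw [← h2]
  congr 1
  group

theorem Lev₂.left {U : Subgroup G} [U.Normal] {β : G × G → A} (hβ : Lev₂ U β) (g h : G) {s t : G}
    (hs : s ∈ U) (ht : t ∈ U) : β (s * g, t * h) = β (g, h) := by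
  have h1 : g⁻¹ * s * g ∈ U := by
    have := (inferInstance : U.Normal).conj_mem s hs g⁻¹
    simpa using this
  have h1' : h⁻¹ * t * h ∈ U := by
    have := (inferInstance : U.Normal).conj_mem t ht h⁻¹
    simpa using this
  have h2 := (hβ g h _ h1 _ h1').1
  rw [← h2]
  congr 2 <;> group

/-- the coboundary of a cochain of level `U` has level `U`. -/
theorem Lev₁.dOne {U : Subgroup G} [U.Normal] {x : G → A} (hx : Lev₁ U x) : Lev₂ U (dOne x) := by
  intro g h s hs t ht
  have h1 : h⁻¹ * s * h ∈ U := by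
    have := (inferInstance : U.Normal).conj_mem s hs h⁻¹
    simpa using this
  have e1 : x (g * s * (h * t)) = x (g * h) := by
    have : g * s * (h * t) = g * h * (h⁻¹ * s * h * t) := by group
    rw [this]
    exact (hx (g * h) _ (U.mul_mem h1 ht)).1
  have h3 : g⁻¹ * s * g ∈ U := by
    have := (inferInstance : U.Normal).conj_mem s hs g⁻¹
    simpa using this
  have e2 : s • g • x h = g • x h := by
    have : s • g • x h = g • (g⁻¹ * s * g) • x h := by
      rw [smul_smul, smul_smul]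
      congr 1
      group
    rw [this, (hx h _ h3).2]
  constructor
  · simp only [Br.dOne]
    rw [e1, (hx g s hs).1, (hx h t ht).1, mul_smul, (hx h s hs).2]
  · simp only [Br.dOne]
    rw [smul_mul', smul_div', e2, (hx (g * h) s hs).2, (hx g s hs).2]

theorem IsSm₁.one : IsSm₁ L (1 : G → A) := by
  obtain ⟨U, hU⟩ := L.ne
  exact ⟨U, hU, Lev₁.one U⟩

theorem IsSm₁.mul {x y : G → A} (hx : IsSm₁ L x) (hy : IsSm₁ L y) : IsSm₁ L (x * y) := by
  obtain ⟨U, hU, hx⟩ := hx
  obtain ⟨V, hV, hy⟩ := hy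
  obtain ⟨W, hW, hle⟩ := L.inter U hU V hV
  exact ⟨W, hW, (hx.mono (hle.trans inf_le_left)).mul (hy.mono (hle.trans inf_le_right))⟩

theorem IsSm₁.inv {x : G → A} (hx : IsSm₁ L x) : IsSm₁ L x⁻¹ := by
  obtain ⟨U, hU, hx⟩ := hx
  exact ⟨U, hU, hx.inv⟩

theorem IsSm₁.div {x y : G → A} (hx : IsSm₁ L x) (hy : IsSm₁ L y) : IsSm₁ L (x / y) := by
  rw [div_eq_mul_inv]
  exact hx.mul hy.inv

theorem IsSm₁.pow {x : G → A} (hx : IsSm₁ L x) (n : ℕ) : IsSm₁ L (x ^ n) := by
  induction n with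
  | zero => rw [pow_zero]; exact IsSm₁.one
  | succ n ih => rw [pow_succ]; exact ih.mul hx

theorem IsSm₁.zpow {x : G → A} (hx : IsSm₁ L x) (n : ℤ) : IsSm₁ L (x ^ n) := by
  cases n with
  | ofNat n => rw [Int.ofNat_eq_natCast, zpow_natCast]; exact hx.pow n
  | negSucc n => rw [zpow_negSucc]; exact (hx.pow _).inv

theorem IsSm₂.one : IsSm₂ L (1 : G × G → A) := by
  obtain ⟨U, hU⟩ := L.ne
  exact ⟨U, hU, Lev₂.one U⟩

theorem IsSm₂.mul {x y : G × G → A} (hx : IsSm₂ L x) (hy : IsSm₂ L y) : IsSm₂ L (x * y) := by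
  obtain ⟨U, hU, hx⟩ := hx
  obtain ⟨V, hV, hy⟩ := hy
  obtain ⟨W, hW, hle⟩ := L.inter U hU V hV
  exact ⟨W, hW, (hx.mono (hle.trans inf_le_left)).mul (hy.mono (hle.trans inf_le_right))⟩

theorem IsSm₂.inv {x : G × G → A} (hx : IsSm₂ L x) : IsSm₂ L x⁻¹ := by
  obtain ⟨U, hU, hx⟩ := hx
  exact ⟨U, hU, hx.inv⟩

theorem IsSm₂.div {x y : G × G → A} (hx : IsSm₂ L x) (hy : IsSm₂ L y) : IsSm₂ L (x / y) := by
  rw [div_eq_mul_inv]
  exact hx.mul hy.inv

theorem IsSm₂.pow {x : G × G → A} (hx : IsSm₂ L x) (n : ℕ) : IsSm₂ L (x ^ n) := by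
  induction n with
  | zero => rw [pow_zero]; exact IsSm₂.one
  | succ n ih => rw [pow_succ]; exact ih.mul hx

theorem IsSm₁.dOne {x : G → A} (hx : IsSm₁ L x) : IsSm₂ L (dOne x) := by
  obtain ⟨U, hU, hx⟩ := hx
  have := L.normal U hU
  exact ⟨U, hU, hx.dOne⟩

/-- two smooth cochains have a common level, which can be chosen inside a given open subgroup. -/
theorem IsSm₁.exists_lev_le {x : G → A} (hx : IsSm₁ L x) {H : Subgroup G} (hH : IsOpen L H) :
    ∃ U ∈ L.lev, U ≤ H ∧ Lev₁ U x := by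
  obtain ⟨U, hU, hx⟩ := hx
  obtain ⟨V, hV, hle⟩ := hH
  obtain ⟨W, hW, hW'⟩ := L.inter U hU V hV
  exact ⟨W, hW, (hW'.trans inf_le_right).trans hle, hx.mono (hW'.trans inf_le_left)⟩

theorem IsSm₂.exists_lev_le {β : G × G → A} (hβ : IsSm₂ L β) {H : Subgroup G} (hH : IsOpen L H) :
    ∃ U ∈ L.lev, U ≤ H ∧ Lev₂ U β := by
  obtain ⟨U, hU, hx⟩ := hβ
  obtain ⟨V, hV, hle⟩ := hH
  obtain ⟨W, hW, hW'⟩ := L.inter U hU V hV
  exact ⟨W, hW, (hW'.trans inf_le_right).trans hle, hx.mono (hW'.trans inf_le_left)⟩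

/-- a cochain which depends only on the class modulo an open normal subgroup `N` and has values
fixed by `N` is smooth. -/
theorem isSm₁_of_open {N : Subgroup G} (hN : IsOpen L N) {x : G → A} (hx : Lev₁ N x) :
    IsSm₁ L x := by
  obtain ⟨U, hU, hle⟩ := hN
  exact ⟨U, hU, hx.mono hle⟩

theorem isSm₂_of_open {N : Subgroup G} (hN : IsOpen L N) {β : G × G → A} (hβ : Lev₂ N β) :
    IsSm₂ L β := by
  obtain ⟨U, hU, hle⟩ := hN
  exact ⟨U, hU, hβ.mono hle⟩

end smooth

section dOne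

variable {G : Type*} [Group G] {A : Type*} [CommGroup A] [MulDistribMulAction G A]

@[simp] theorem dOne_apply (x : G → A) (g h : G) : dOne x (g, h) = g • x h / x (g * h) * x g := rfl

theorem dOne_one : dOne (1 : G → A) = 1 := by
  funext ⟨g, h⟩
  simp

theorem dOne_mul (x y : G → A) : dOne (x * y) = dOne x * dOne y := by
  funext ⟨g, h⟩
  simp only [dOne_apply, Pi.mul_apply, smul_mul', div_eq_mul_inv, mul_inv]
  ac_rfl

theorem dOne_inv (x : G → A) : dOne x⁻¹ = (dOne x)⁻¹ := by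
  funext ⟨g, h⟩
  simp only [dOne_apply, Pi.inv_apply, smul_inv']
  rw [inv_div_inv, mul_inv, inv_div]

theorem dOne_div (x y : G → A) : dOne (x / y) = dOne x / dOne y := by
  rw [div_eq_mul_inv, dOne_mul, dOne_inv, div_eq_mul_inv]

theorem dOne_pow (x : G → A) (n : ℕ) : dOne (x ^ n) = dOne x ^ n := by
  induction n with
  | zero => rw [pow_zero, pow_zero, dOne_one]
  | succ n ih => rw [pow_succ, pow_succ, dOne_mul, ih]

theorem dOne_zpow (x : G → A) (n : ℤ) : dOne (x ^ n) = dOne x ^ n := by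
  cases n with
  | ofNat n => rw [Int.ofNat_eq_natCast, zpow_natCast, zpow_natCast, dOne_pow]
  | negSucc n => rw [zpow_negSucc, zpow_negSucc, dOne_inv, dOne_pow]

theorem isMulCocycle₂_dOne (x : G → A) : IsMulCocycle₂ (dOne x) := by
  intro g h j
  have aux : ∀ a b c d e f : A, (a / b * c) * (d / c * e) = (a / f * d) * (f / b * e) := by
    intro a b c d e f
    have h1 : (a / b * c) * (d / c * e) = a * d * e / b * (c / c) := by
      simp only [div_eq_mul_inv]
      ac_rfl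
    have h2 : (a / f * d) * (f / b * e) = a * d * e / b * (f / f) := by
      simp only [div_eq_mul_inv]
      ac_rfl
    rw [h1, h2, div_self', div_self']
  simp only [dOne_apply, smul_mul', smul_div', mul_smul]
  rw [mul_assoc g h j]
  exact aux _ _ _ _ _ _

theorem isMulCocycle₂_one : IsMulCocycle₂ (1 : G × G → A) := by
  intro g h j
  simp

theorem isMulCocycle₂_mul {f f' : G × G → A} (hf : IsMulCocycle₂ f) (hf' : IsMulCocycle₂ f') :
    IsMulCocycle₂ (f * f') := by
  intro g h j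
  simp only [Pi.mul_apply, smul_mul']
  calc f (g * h, j) * f' (g * h, j) * (f (g, h) * f' (g, h))
      = (f (g * h, j) * f (g, h)) * (f' (g * h, j) * f' (g, h)) := by ac_rfl
    _ = (g • f (h, j) * f (g, h * j)) * (g • f' (h, j) * f' (g, h * j)) := by rw [hf, hf']
    _ = _ := by ac_rfl

theorem isMulCocycle₂_inv {f : G × G → A} (hf : IsMulCocycle₂ f) : IsMulCocycle₂ f⁻¹ := by
  intro g h j
  simp only [Pi.inv_apply, smul_inv']
  rw [← mul_inv, ← mul_inv, hf]

/-- `dOne x = 1` iff `x` is a 1-cocycle. -/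
theorem dOne_eq_one_iff (x : G → A) : dOne x = 1 ↔ IsMulCocycle₁ x := by
  constructor
  · intro h g k
    have := congrFun h (g, k)
    simp only [dOne_apply, Pi.one_apply] at this
    rw [div_mul_eq_mul_div, div_eq_one] at this
    exact this.symm
  · intro h
    funext ⟨g, k⟩
    simp only [dOne_apply, Pi.one_apply]
    rw [div_mul_eq_mul_div, div_eq_one]
    exact (h g k).symm

/-- with the discrete level system, `Triv` is Mathlib's `IsMulCoboundary₂`. -/
theorem triv_bot_iff (β : G × G → A) : Triv (LevelSys.bot G) β ↔ IsMulCoboundary₂ β := by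
  constructor
  · rintro ⟨x, -, rfl⟩
    exact ⟨x, fun g h => rfl⟩
  · rintro ⟨x, hx⟩
    refine ⟨x, ⟨⊥, rfl, ?_⟩, ?_⟩
    · intro g s hs
      rw [Subgroup.mem_bot] at hs
      subst hs
      simp
    · funext ⟨g, h⟩
      exact hx g h

theorem isCoc_bot_iff (β : G × G → A) : IsCoc (LevelSys.bot G) β ↔ IsMulCocycle₂ β := by
  constructor
  · intro h
    exact h.coc
  · intro h
    refine ⟨h, ⟨⊥, rfl, ?_⟩⟩
    intro g k s hs t ht
    rw [Subgroup.mem_bot] at hs ht
    subst hs ht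
    simp

end dOne

end Fermat.Agent.S55.Br
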